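import Mathlib


/-!
# P-S41 (B1): explicit coset representatives (helper40)

`q` prime, `q ∤ N`, Bezout `q u + N v = 1`.

* Left coset representatives of `Γ₀(N q)` in `Γ₀(N)`: `1` and `etaInv j = (eta j)⁻¹`, `j < q`, where
  `eta j = [[1, j + v], [-N, q u - N j]]`.
* Left coset representatives of `D = Γ₀(N) ∩ Γ⁰(q)` in `Γ₀(N)`: `tauInv j = [[1, -j], [0, 1]]`,
  `j < q`, and `gam0 = [[u, -v], [N, q]]`.
-/

set_option autoImplicit false

open CongruenceSubgroup Matrix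
open scoped MatrixGroups

namespace Fermat.Agent.S41.Forms

section Bezout

variable (N q : ℕ)

/-- Bezout coefficient `u` with `q u + N v = gcd q N`. -/
def bzU : ℤ := Int.gcdA q N

/-- Bezout coefficient `v` with `q u + N v = gcd q N`. -/
def bzV : ℤ := Int.gcdB q N

theorem bezout (h : Nat.Coprime q N) : (q : ℤ) * bzU N q + (N : ℤ) * bzV N q = 1 := by
  have := Int.gcd_eq_gcd_ab (q : ℤ) (N : ℤ)
  rw [Int.gcd_natCast_natCast, h] at this
  rw [bzU, bzV]
  exact_mod_cast this.symm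

end Bezout

/-! ### Membership in `Γ₀` via divisibility -/

theorem mem_Gamma0_iff_dvd (M : ℕ) (γ : SL(2, ℤ)) : γ ∈ Gamma0 M ↔ (M : ℤ) ∣ γ 1 0 := by
  rw [Gamma0_mem, ZMod.intCast_zmod_eq_zero_iff_dvd]

theorem inv_mul_apply_one_zero (γ γ' : SL(2, ℤ)) :
    (γ⁻¹ * γ') 1 0 = γ 0 0 * γ' 1 0 - γ 1 0 * γ' 0 0 := by
  simp only [Matrix.SpecialLinearGroup.coe_mul, Matrix.mul_apply, Fin.sum_univ_two,
    Matrix.SpecialLinearGroup.coe_inv, Matrix.adjugate_fin_two, Matrix.of_apply, Matrix.cons_val',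
    Matrix.cons_val_zero, Matrix.cons_val_one, Matrix.empty_val', Matrix.cons_val_fin_one]
  ring

theorem inv_mul_apply_zero_one (γ γ' : SL(2, ℤ)) :
    (γ⁻¹ * γ') 0 1 = γ 1 1 * γ' 0 1 - γ 0 1 * γ' 1 1 := by
  simp only [Matrix.SpecialLinearGroup.coe_mul, Matrix.mul_apply, Fin.sum_univ_two,
    Matrix.SpecialLinearGroup.coe_inv, Matrix.adjugate_fin_two, Matrix.of_apply, Matrix.cons_val',
    Matrix.cons_val_zero, Matrix.cons_val_one, Matrix.empty_val', Matrix.cons_val_fin_one]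
  ring

/-! ### Representatives for `Γ₀(N q)` in `Γ₀(N)` -/

section Reps₁

variable (N q : ℕ) (h : Nat.Coprime q N)

/-- `eta j = [[1, j + v], [-N, q u - N j]]`. -/
def eta (j : ℤ) : SL(2, ℤ) :=
  ⟨!![1, j + bzV N q; -(N : ℤ), q * bzU N q - N * j], by
    rw [det_fin_two_of]; linear_combination bezout N q h⟩

/-- `etaInv j = [[q u - N j, -(j + v)], [N, 1]]`, the inverse of `eta j`. -/
def etaInv (j : ℤ) : SL(2, ℤ) :=
  ⟨!![q * bzU N q - N * j, -(j + bzV N q); (N : ℤ), 1], by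
    rw [det_fin_two_of]; linear_combination bezout N q h⟩

theorem eta_inv (j : ℤ) : (eta N q h j)⁻¹ = etaInv N q h j := by
  rw [inv_eq_iff_mul_eq_one]
  apply Subtype.ext
  have hb := bezout N q h
  show (!![1, j + bzV N q; -(N : ℤ), q * bzU N q - N * j] : Matrix (Fin 2) (Fin 2) ℤ) *
    !![q * bzU N q - N * j, -(j + bzV N q); (N : ℤ), 1] = 1
  rw [Matrix.mul_fin_two, Matrix.one_fin_two]
  ext a b
  fin_cases a <;> fin_cases b
  · simp
    linear_combination hb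
  · simp
  · simp
    ring
  · simp
    linear_combination hb

theorem etaInv_inv (j : ℤ) : (etaInv N q h j)⁻¹ = eta N q h j := by
  rw [← eta_inv, inv_inv]

theorem etaInv_mem (j : ℤ) : etaInv N q h j ∈ Gamma0 N := by
  rw [mem_Gamma0_iff_dvd]
  simp [etaInv]

theorem eta_mem (j : ℤ) : eta N q h j ∈ Gamma0 N := by
  rw [← etaInv_inv]
  exact inv_mem (etaInv_mem N q h j)

/-- Left coset representatives of `Γ₀(N q)` in `Γ₀(N)`. -/
def rep₁ : Option (Fin q) → SL(2, ℤ)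
  | none => 1
  | some j => etaInv N q h ((j : ℕ) : ℤ)

theorem rep₁_mem (x : Option (Fin q)) : rep₁ N q h x ∈ Gamma0 N := by
  rcases x with _ | j
  · exact one_mem _
  · exact etaInv_mem N q h _

variable [NeZero N] (hq : q.Prime)

omit [NeZero N] in
include h hq in
theorem not_dvd_of_coprime : ¬ (q : ℤ) ∣ (N : ℤ) := by
  intro hd
  have h1 : q ∣ N := by exact_mod_cast hd
  have h2 : q ∣ Nat.gcd q N := Nat.dvd_gcd dvd_rfl h1
  rw [h] at h2
  exact hq.one_lt.ne' (Nat.dvd_one.mp h2)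

theorem dvd_of_mul_dvd_mul {x : ℤ} (hx : ((N * q : ℕ) : ℤ) ∣ (N : ℤ) * x) : (q : ℤ) ∣ x := by
  have hN : (N : ℤ) ≠ 0 := by exact_mod_cast NeZero.ne N
  push_cast at hx
  exact (mul_dvd_mul_iff_left hN).mp hx

include h hq in
theorem rep₁_injective (x y : Option (Fin q))
    (hxy : (rep₁ N q h x)⁻¹ * rep₁ N q h y ∈ Gamma0 (N * q)) : x = y := by
  have hN : (N : ℤ) ≠ 0 := by exact_mod_cast NeZero.ne N
  have hqp : Prime (q : ℤ) := Nat.prime_iff_prime_int.mp hq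
  have hqN := not_dvd_of_coprime N q h hq
  have hq1 : ¬ (q : ℤ) ∣ 1 := fun hd => hqp.not_isUnit (isUnit_of_dvd_one hd)
  rw [mem_Gamma0_iff_dvd, inv_mul_apply_one_zero] at hxy
  rcases x with _ | i <;> rcases y with _ | j
  · rfl
  · exfalso
    simp only [rep₁, etaInv] at hxy
    simp at hxy
    apply hq1
    apply dvd_of_mul_dvd_mul N q
    simpa using hxy
  · exfalso
    simp only [rep₁, etaInv] at hxy
    simp at hxy
    apply hq1
    apply dvd_of_mul_dvd_mul N q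
    simpa using hxy
  · simp only [rep₁, etaInv] at hxy
    simp at hxy
    have h1 : ((N * q : ℕ) : ℤ) ∣ (N : ℤ) * ((N : ℤ) * (((j : ℕ) : ℤ) - ((i : ℕ) : ℤ))) := by
      convert hxy using 1
      · push_cast; ring
      · ring
    have h2 := dvd_of_mul_dvd_mul N q h1
    have h3 : (q : ℤ) ∣ ((j : ℕ) : ℤ) - ((i : ℕ) : ℤ) :=
      (hqp.dvd_or_dvd h2).resolve_left hqN
    have h4 : ((j : ℕ) : ℤ) - ((i : ℕ) : ℤ) = 0 := by
      apply Int.eq_zero_of_abs_lt_dvd h3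
      have hi := i.2
      have hj := j.2
      rw [abs_lt]
      constructor <;> omega
    have h5 : (i : ℕ) = (j : ℕ) := by omega
    exact congrArg some (Fin.ext h5)

include h hq in
theorem rep₁_surjective (γ : SL(2, ℤ)) (hγ : γ ∈ Gamma0 N) :
    ∃ x : Option (Fin q), (rep₁ N q h x)⁻¹ * γ ∈ Gamma0 (N * q) := by
  have : Fact q.Prime := ⟨hq⟩
  have hN : (N : ℤ) ≠ 0 := by exact_mod_cast NeZero.ne N
  have hqN := not_dvd_of_coprime N q h hq
  rw [mem_Gamma0_iff_dvd] at hγ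
  obtain ⟨c₁, hc₁⟩ := hγ
  by_cases hc : (q : ℤ) ∣ c₁
  · refine ⟨none, ?_⟩
    rw [mem_Gamma0_iff_dvd, inv_mul_apply_one_zero]
    simp only [rep₁]
    simp
    rw [hc₁]
    push_cast
    exact mul_dvd_mul_left _ hc
  · have hNz : ((N : ℕ) : ZMod q) ≠ 0 := by
      intro h0
      apply hqN
      have : (((N : ℕ) : ℤ) : ZMod q) = 0 := by exact_mod_cast h0
      rwa [ZMod.intCast_zmod_eq_zero_iff_dvd] at this
    have hcz : ((c₁ : ℤ) : ZMod q) ≠ 0 := by
      rwa [Ne, ZMod.intCast_zmod_eq_zero_iff_dvd]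
    obtain ⟨jj, hjj_lt, key⟩ : ∃ jj : ℕ, jj < q ∧
        (q : ℤ) ∣ ((q : ℤ) * bzU N q - N * (jj : ℤ)) * c₁ - γ 0 0 := by
      set t : ZMod q := -((γ 0 0 : ℤ) : ZMod q) * (((N : ℕ) : ZMod q) * ((c₁ : ℤ) : ZMod q))⁻¹
        with ht
      refine ⟨t.val, ZMod.val_lt t, ?_⟩
      rw [← ZMod.intCast_zmod_eq_zero_iff_dvd]
      push_cast
      rw [ZMod.natCast_zmod_val, ht]
      simp only [ZMod.natCast_self, zero_mul, zero_sub]
      field_simp
      ring
    refine ⟨some ⟨jj, hjj_lt⟩, ?_⟩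
    rw [mem_Gamma0_iff_dvd, inv_mul_apply_one_zero]
    simp only [rep₁, etaInv]
    simp
    rw [hc₁]
    obtain ⟨m, hm⟩ := key
    refine ⟨m, ?_⟩
    push_cast
    linear_combination (N : ℤ) * hm

end Reps₁

/-! ### Representatives for `D = Γ₀(N) ∩ Γ⁰(q)` in `Γ₀(N)` -/

section Reps₂

variable (N q : ℕ) (h : Nat.Coprime q N)

/-- `tau j = [[1, j], [0, 1]]`. -/
def tau (j : ℤ) : SL(2, ℤ) := ⟨!![1, j; 0, 1], by rw [det_fin_two_of]; ring⟩

/-- `tauInv j = [[1, -j], [0, 1]]`. -/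
def tauInv (j : ℤ) : SL(2, ℤ) := ⟨!![1, -j; 0, 1], by rw [det_fin_two_of]; ring⟩

theorem tauInv_inv (j : ℤ) : (tauInv j)⁻¹ = tau j := by
  rw [inv_eq_iff_mul_eq_one]
  apply Subtype.ext
  show (!![1, -j; 0, 1] : Matrix (Fin 2) (Fin 2) ℤ) * !![1, j; 0, 1] = 1
  rw [Matrix.mul_fin_two, Matrix.one_fin_two]
  ext a b
  fin_cases a <;> fin_cases b <;> simp

theorem tauInv_mem (M : ℕ) (j : ℤ) : tauInv j ∈ Gamma0 M := by
  rw [mem_Gamma0_iff_dvd]
  simp [tauInv]

/-- `gam0 = [[u, -v], [N, q]]`. -/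
def gam0 : SL(2, ℤ) :=
  ⟨!![bzU N q, -bzV N q; (N : ℤ), (q : ℤ)], by
    rw [det_fin_two_of]; linear_combination bezout N q h⟩

/-- `gam0Inv = [[q, v], [-N, u]]`. -/
def gam0Inv : SL(2, ℤ) :=
  ⟨!![(q : ℤ), bzV N q; -(N : ℤ), bzU N q], by
    rw [det_fin_two_of]; linear_combination bezout N q h⟩

theorem gam0_inv : (gam0 N q h)⁻¹ = gam0Inv N q h := by
  rw [inv_eq_iff_mul_eq_one]
  apply Subtype.ext
  have hb := bezout N q h
  show (!![bzU N q, -bzV N q; (N : ℤ), (q : ℤ)] : Matrix (Fin 2) (Fin 2) ℤ) *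
    !![(q : ℤ), bzV N q; -(N : ℤ), bzU N q] = 1
  rw [Matrix.mul_fin_two, Matrix.one_fin_two]
  ext a b
  fin_cases a <;> fin_cases b
  · simp
    linear_combination hb
  · simp
    ring
  · simp
    ring
  · simp
    linear_combination hb

theorem gam0_mem : gam0 N q h ∈ Gamma0 N := by
  rw [mem_Gamma0_iff_dvd]
  simp [gam0]

theorem tauInv_zero_one (j : ℤ) : (tauInv j) 0 1 = -j := by simp [tauInv]
theorem tauInv_one_one (j : ℤ) : (tauInv j) 1 1 = 1 := by simp [tauInv]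
theorem gam0_zero_one : (gam0 N q h) 0 1 = -bzV N q := by simp [gam0]
theorem gam0_one_one : (gam0 N q h) 1 1 = (q : ℤ) := by simp [gam0]

/-- Left coset representatives of `D = Γ₀(N) ∩ Γ⁰(q)` in `Γ₀(N)`. -/
def rep₂ : Option (Fin q) → SL(2, ℤ)
  | none => gam0 N q h
  | some j => tauInv ((j : ℕ) : ℤ)

theorem rep₂_mem (x : Option (Fin q)) : rep₂ N q h x ∈ Gamma0 N := by
  rcases x with _ | j
  · exact gam0_mem N q h
  · exact tauInv_mem N _

variable (hq : q.Prime)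

include h hq in
theorem not_dvd_bzV : ¬ (q : ℤ) ∣ bzV N q := by
  intro hd
  have hqp : Prime (q : ℤ) := Nat.prime_iff_prime_int.mp hq
  have hb := bezout N q h
  have : (q : ℤ) ∣ 1 := by
    rw [← hb]
    exact dvd_add (dvd_mul_right _ _) (dvd_mul_of_dvd_right hd _)
  exact hqp.not_isUnit (isUnit_of_dvd_one this)

include h hq in
theorem rep₂_injective (x y : Option (Fin q))
    (hxy : (q : ℤ) ∣ ((rep₂ N q h x)⁻¹ * rep₂ N q h y) 0 1) : x = y := by
  have hv := not_dvd_bzV N q h hq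
  rw [inv_mul_apply_zero_one] at hxy
  rcases x with _ | i <;> rcases y with _ | j
  · rfl
  · exfalso
    simp only [rep₂] at hxy
    rw [gam0_one_one, gam0_zero_one, tauInv_zero_one, tauInv_one_one] at hxy
    apply hv
    have h2 : (q : ℤ) ∣ (q : ℤ) * (-((j : ℕ) : ℤ)) + bzV N q := by
      convert hxy using 1
      ring
    exact (dvd_add_right (dvd_mul_right _ _)).mp h2
  · exfalso
    simp only [rep₂] at hxy
    rw [gam0_one_one, gam0_zero_one, tauInv_zero_one, tauInv_one_one] at hxy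
    apply hv
    have h2 : (q : ℤ) ∣ (q : ℤ) * (((i : ℕ) : ℤ)) + (-bzV N q) := by
      convert hxy using 1
      ring
    exact (dvd_neg).mp ((dvd_add_right (dvd_mul_right _ _)).mp h2)
  · simp only [rep₂] at hxy
    rw [tauInv_zero_one, tauInv_one_one, tauInv_zero_one, tauInv_one_one] at hxy
    have h4 : ((i : ℕ) : ℤ) - ((j : ℕ) : ℤ) = 0 := by
      apply Int.eq_zero_of_abs_lt_dvd (m := (q : ℤ))
      · convert hxy using 1
        ring
      · have hi := i.2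
        have hj := j.2
        rw [abs_lt]
        constructor <;> omega
    have h5 : (i : ℕ) = (j : ℕ) := by omega
    exact congrArg some (Fin.ext h5)

include h hq in
theorem rep₂_surjective (γ : SL(2, ℤ)) :
    ∃ x : Option (Fin q), (q : ℤ) ∣ ((rep₂ N q h x)⁻¹ * γ) 0 1 := by
  have : Fact q.Prime := ⟨hq⟩
  by_cases hd : (q : ℤ) ∣ γ 1 1
  · refine ⟨none, ?_⟩
    rw [inv_mul_apply_zero_one]
    simp only [rep₂]
    rw [gam0_one_one, gam0_zero_one]
    exact dvd_sub (dvd_mul_right _ _) (dvd_mul_of_dvd_right hd _)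
  · have hdz : ((γ 1 1 : ℤ) : ZMod q) ≠ 0 := by
      rwa [Ne, ZMod.intCast_zmod_eq_zero_iff_dvd]
    obtain ⟨jj, hjj_lt, key⟩ : ∃ jj : ℕ, jj < q ∧ (q : ℤ) ∣ γ 0 1 + (jj : ℤ) * γ 1 1 := by
      set t : ZMod q := -((γ 0 1 : ℤ) : ZMod q) * (((γ 1 1 : ℤ) : ZMod q))⁻¹ with ht
      refine ⟨t.val, ZMod.val_lt t, ?_⟩
      rw [← ZMod.intCast_zmod_eq_zero_iff_dvd]
      push_cast
      rw [ZMod.natCast_zmod_val, ht]
      field_simp
      ring
    refine ⟨some ⟨jj, hjj_lt⟩, ?_⟩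
    rw [inv_mul_apply_zero_one]
    simp only [rep₂]
    rw [tauInv_zero_one, tauInv_one_one]
    convert key using 1
    ring

end Reps₂

end Fermat.Agent.S41.Forms
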