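import Mathlib
import Fermat.Agent.S41.ES.Main
import Fermat.Agent.S41.Forms.Cosets

/-!
# P-S41 (B1-a): the trace formulas in weight 2 (helper40)

`q` prime, `q ∤ N`, `aMat = [[q, v], [-N q, q u]]` an Atkin–Lehner matrix (`q u + N v = 1`).  For a
cusp form `g` of weight `2` on `Γ₀(N q)` and helper98's traces `Tr₁`, `Tr₂` (`ES/Main.lean`):

* `Tr₁ g = g + U_q (g ∣ aMat)`,
* `Tr₂ g = g ∣ aMat + U_q g`,
* hence `U_q (U_q g) = g` for `g` in the `q`-new subspace `NewSub N q = ker Tr₁ ⊓ ker Tr₂`.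
-/

set_option autoImplicit false

open CongruenceSubgroup Matrix UpperHalfPlane ModularForm
open scoped MatrixGroups ModularForm
open Matrix.SpecialLinearGroup (mapGL)
open Fermat.Agent.S41 Fermat.Agent.S41.ES
open Fermat.Agent.Gateway.HeckeCohPeriod (slash_two_apply_of_det_pos)

noncomputable section

namespace Fermat.Agent.S41.Forms

/-! ### The ranges of the two degeneracy maps -/

theorem mem_range_incl_iff (N q : ℕ) (γ : Gamma0 N) :
    γ ∈ (incl N q).range ↔ (γ : SL(2, ℤ)) ∈ Gamma0 (N * q) := by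
  constructor
  · rintro ⟨c, rfl⟩
    exact c.2
  · intro h
    exact ⟨⟨γ, h⟩, Subtype.ext rfl⟩

theorem mem_range_degConj_iff (N q : ℕ) [NeZero q] (γ : Gamma0 N) :
    γ ∈ (degConj N q).range ↔ (q : ℤ) ∣ (γ : SL(2, ℤ)) 0 1 := by
  have hq : (q : ℤ) ≠ 0 := by exact_mod_cast NeZero.ne q
  constructor
  · rintro ⟨c, rfl⟩
    rw [degConj_coe, degSL_zero_one]
    exact Dvd.intro _ rfl
  · rintro ⟨b', hb'⟩
    have d10 : (N : ℤ) ∣ (γ : SL(2, ℤ)) 1 0 := (mem_Gamma0_iff_dvd N _).mp γ.2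
    have hdet := (γ : SL(2, ℤ)).det_coe
    rw [Matrix.det_fin_two] at hdet
    let M : Matrix (Fin 2) (Fin 2) ℤ :=
      !![(γ : SL(2, ℤ)) 0 0, b'; (q : ℤ) * (γ : SL(2, ℤ)) 1 0, (γ : SL(2, ℤ)) 1 1]
    have hM : M.det = 1 := by
      rw [Matrix.det_fin_two_of]
      rw [hb'] at hdet
      linear_combination hdet
    let δ : SL(2, ℤ) := ⟨M, hM⟩
    have hδ : δ ∈ Gamma0 (N * q) := by
      rw [mem_Gamma0_iff_dvd]
      show ((N * q : ℕ) : ℤ) ∣ M 1 0
      have : M 1 0 = (q : ℤ) * (γ : SL(2, ℤ)) 1 0 := by simp [M]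
      rw [this]
      push_cast
      rw [mul_comm]
      exact mul_dvd_mul_left _ d10
    refine ⟨⟨δ, hδ⟩, ?_⟩
    apply Subtype.ext
    rw [degConj_coe]
    ext i j
    fin_cases i <;> fin_cases j
    · show (degSL N q ⟨δ, hδ⟩) 0 0 = (γ : SL(2, ℤ)) 0 0
      rw [degSL_zero_zero]
      simp [δ, M]
    · show (degSL N q ⟨δ, hδ⟩) 0 1 = (γ : SL(2, ℤ)) 0 1
      rw [degSL_zero_one, hb']
      simp [δ, M]
    · show (degSL N q ⟨δ, hδ⟩) 1 0 = (γ : SL(2, ℤ)) 1 0
      apply mul_left_cancel₀ hq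
      rw [q_mul_degSL_one_zero]
      simp [δ, M]
    · show (degSL N q ⟨δ, hδ⟩) 1 1 = (γ : SL(2, ℤ)) 1 1
      rw [degSL_one_one]
      simp [δ, M]

/-! ### The explicit systems of representatives -/

section Reps

variable (N q : ℕ) (h : Nat.Coprime q N)

/-- The representatives `rep₁` as elements of `Γ₀(N)`. -/
def r₁ (x : Option (Fin q)) : Gamma0 N := ⟨rep₁ N q h x, rep₁_mem N q h x⟩

/-- The representatives `rep₂` as elements of `Γ₀(N)`. -/
def r₂ (x : Option (Fin q)) : Gamma0 N := ⟨rep₂ N q h x, rep₂_mem N q h x⟩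

variable [NeZero N] (hq : q.Prime)

include hq in
theorem bijective_r₁ :
    Function.Bijective (fun x => (r₁ N q h x : Gamma0 N ⧸ (incl N q).range)) := by
  constructor
  · intro x y hxy
    have h1 := QuotientGroup.eq.mp hxy
    rw [mem_range_incl_iff] at h1
    exact rep₁_injective N q h hq x y h1
  · intro y
    obtain ⟨γ, rfl⟩ := QuotientGroup.mk_surjective y
    obtain ⟨x, hx⟩ := rep₁_surjective N q h hq (γ : SL(2, ℤ)) γ.2
    refine ⟨x, ?_⟩
    apply QuotientGroup.eq.mpr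
    rw [mem_range_incl_iff]
    exact hx

omit [NeZero N] in
include hq in
theorem bijective_r₂ [NeZero q] :
    Function.Bijective (fun x => (r₂ N q h x : Gamma0 N ⧸ (degConj N q).range)) := by
  constructor
  · intro x y hxy
    have h1 := QuotientGroup.eq.mp hxy
    rw [mem_range_degConj_iff] at h1
    exact rep₂_injective N q h hq x y h1
  · intro y
    obtain ⟨γ, rfl⟩ := QuotientGroup.mk_surjective y
    obtain ⟨x, hx⟩ := rep₂_surjective N q h hq (γ : SL(2, ℤ))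
    refine ⟨x, ?_⟩
    apply QuotientGroup.eq.mpr
    rw [mem_range_degConj_iff]
    exact hx

end Reps


/-! ### Weight two slash action and positive scalar multiples -/

theorem slash_two_eq_of_smul (f : ℍ → ℂ) {A B : GL (Fin 2) ℝ} {c : ℝ} (hc : 0 < c)
    (hB : 0 < B.val.det)
    (hAB : (A : Matrix (Fin 2) (Fin 2) ℝ) = c • (B : Matrix (Fin 2) (Fin 2) ℝ)) :
    f ∣[(2 : ℤ)] A = f ∣[(2 : ℤ)] B := by
  have hdet : A.val.det = c ^ 2 * B.val.det := by
    rw [hAB, Matrix.det_smul, Fintype.card_fin]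
  have hA : 0 < A.val.det := by
    rw [hdet]
    positivity
  have hA' : (0 : ℝ) < (A.det : ℝ) := by
    rw [Matrix.GeneralLinearGroup.val_det_apply]; exact hA
  have hB' : (0 : ℝ) < (B.det : ℝ) := by
    rw [Matrix.GeneralLinearGroup.val_det_apply]; exact hB
  have hc' : (c : ℂ) ≠ 0 := by exact_mod_cast hc.ne'
  ext τ
  rw [slash_two_apply_of_det_pos f hA, slash_two_apply_of_det_pos f hB]
  have hden : denom A τ = c * denom B τ := by
    simp only [denom, hAB, Matrix.smul_apply, smul_eq_mul]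
    push_cast
    ring
  have hnum : num A τ = c * num B τ := by
    simp only [num, hAB, Matrix.smul_apply, smul_eq_mul]
    push_cast
    ring
  have hsmul : A • τ = B • τ := by
    apply UpperHalfPlane.ext
    rw [coe_smul_of_det_pos hA', coe_smul_of_det_pos hB', hnum, hden, mul_div_mul_left _ _ hc']
  rw [hsmul, hden, hdet]
  push_cast
  have hdB : denom B τ ≠ 0 := denom_ne_zero B τ
  field_simp


/-! ### The matrices -/

theorem mapGL_real_apply (γ : SL(2, ℤ)) (i j : Fin 2) :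
    ((mapGL ℝ γ : GL (Fin 2) ℝ) : Matrix (Fin 2) (Fin 2) ℝ) i j = ((γ i j : ℤ) : ℝ) := rfl

section Matrices

variable (N q : ℕ) (h : Nat.Coprime q N)

include h in
theorem bezout_real : (q : ℝ) * (bzU N q : ℝ) + (N : ℝ) * (bzV N q : ℝ) = 1 := by
  exact_mod_cast bezout N q h

variable [NeZero q]

/-- The Atkin–Lehner type matrix `[[q, v], [-N q, q u]]` (determinant `q`). -/
def aMat : GL (Fin 2) ℝ :=
  Matrix.GeneralLinearGroup.mkOfDetNeZero
    !![(q : ℝ), (bzV N q : ℝ); -((N : ℝ) * q), (q : ℝ) * (bzU N q : ℝ)] (by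
      rw [Matrix.det_fin_two_of]
      have hb := bezout_real N q h
      have hq : (q : ℝ) ≠ 0 := by exact_mod_cast NeZero.ne q
      have : (q : ℝ) * ((q : ℝ) * (bzU N q : ℝ)) - (bzV N q : ℝ) * -((N : ℝ) * q) = q := by
        linear_combination (q : ℝ) * hb
      rw [this]
      exact hq)

theorem coe_aMat : ((aMat N q h : GL (Fin 2) ℝ) : Matrix (Fin 2) (Fin 2) ℝ)
    = !![(q : ℝ), (bzV N q : ℝ); -((N : ℝ) * q), (q : ℝ) * (bzU N q : ℝ)] := rfl

theorem det_aMat : (aMat N q h : GL (Fin 2) ℝ).val.det = q := by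
  rw [coe_aMat, Matrix.det_fin_two_of]
  linear_combination (q : ℝ) * bezout_real N q h

theorem det_aMat_pos : 0 < (aMat N q h : GL (Fin 2) ℝ).val.det := by
  rw [det_aMat]
  exact_mod_cast Nat.pos_of_ne_zero (NeZero.ne q)

/-- `diag(1, q) * gam0⁻¹ = aMat`. -/
theorem diagQ_mul_gam0Inv : diagQ q * mapGL ℝ (gam0Inv N q h) = aMat N q h := by
  apply Units.ext
  rw [Units.val_mul, coe_diagQ, coe_aMat]
  ext i j
  rw [Matrix.mul_apply, Fin.sum_univ_two]
  simp only [mapGL_real_apply]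
  fin_cases i <;> fin_cases j <;> simp [gam0Inv]
  ring

/-- `diag(1, q) * [[1, j], [0, 1]] = [[1, j], [0, q]]`. -/
theorem diagQ_mul_tau (j : ℕ) : diagQ q * mapGL ℝ (tau (j : ℤ)) = heckeMatrix q j := by
  apply Units.ext
  rw [Units.val_mul, coe_diagQ, val_heckeMatrix (NeZero.ne q)]
  ext i j
  rw [Matrix.mul_apply, Fin.sum_univ_two]
  simp only [mapGL_real_apply]
  fin_cases i <;> fin_cases j <;> simp [tau]

/-- `aMat * [[1, j], [0, q]] = q • eta j`. -/
theorem aMat_mul_heckeMatrix (j : ℕ) :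
    ((aMat N q h * heckeMatrix q j : GL (Fin 2) ℝ) : Matrix (Fin 2) (Fin 2) ℝ)
      = (q : ℝ) • ((mapGL ℝ (eta N q h (j : ℤ)) : GL (Fin 2) ℝ) : Matrix (Fin 2) (Fin 2) ℝ) := by
  rw [Units.val_mul, coe_aMat, val_heckeMatrix (NeZero.ne q)]
  ext i j
  rw [Matrix.mul_apply, Fin.sum_univ_two, Matrix.smul_apply, mapGL_real_apply]
  fin_cases i <;> fin_cases j <;> simp [eta] <;> ring

end Matrices


/-! ### The trace formulas -/

section TraceFormulas

variable (N q : ℕ) [NeZero N] [NeZero q] (h : Nat.Coprime q N) (hq : q.Prime)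

omit [NeZero N] in
/-- `(f ∣ aMat) ∣ [[1, j], [0, q]] = f ∣ eta j` in weight `2`. -/
theorem slash_aMat_slash_heckeMatrix (f : ℍ → ℂ) (j : ℕ) :
    (f ∣[(2 : ℤ)] aMat N q h) ∣[(2 : ℤ)] heckeMatrix q j
      = f ∣[(2 : ℤ)] (mapGL ℝ (eta N q h (j : ℤ)) : GL (Fin 2) ℝ) := by
  rw [← SlashAction.slash_mul]
  refine slash_two_eq_of_smul f (c := (q : ℝ)) ?_ ?_ (aMat_mul_heckeMatrix N q h j)
  · exact_mod_cast Nat.pos_of_ne_zero (NeZero.ne q)
  · rw [Fermat.Agent.S21.val_det_mapGL]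
    exact one_pos

include hq in
/-- `Tr₁ g = g + U_q (g ∣ aMat)`. -/
theorem coe_Tr₁ (g : CuspForm (Gamma0 (N * q)) 2) :
    (⇑(Tr₁ N q g) : ℍ → ℂ) = ⇑g + heckeU 2 q ((⇑g : ℍ → ℂ) ∣[(2 : ℤ)] aMat N q h) := by
  funext τ
  rw [Tr₁_apply N q g (r₁ N q h) (bijective_r₁ N q h hq) τ, Fintype.sum_option, Pi.add_apply,
    heckeU_def, Finset.sum_apply, Finset.sum_range]
  congr 1
  · have h1 : (((r₁ N q h none)⁻¹ : Gamma0 N) : SL(2, ℤ)) = 1 := inv_one
    rw [h1, map_one, SlashAction.slash_one]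
  · refine Finset.sum_congr rfl fun j _ => ?_
    have h1 : (((r₁ N q h (some j))⁻¹ : Gamma0 N) : SL(2, ℤ)) = eta N q h ((j : ℕ) : ℤ) :=
      etaInv_inv N q h _
    rw [h1, slash_aMat_slash_heckeMatrix]

include hq in
/-- `Tr₂ g = g ∣ aMat + U_q g`. -/
theorem coe_Tr₂ (g : CuspForm (Gamma0 (N * q)) 2) :
    (⇑(Tr₂ N q g) : ℍ → ℂ) = (⇑g : ℍ → ℂ) ∣[(2 : ℤ)] aMat N q h + heckeU 2 q ⇑g := by
  funext τ
  rw [Tr₂_apply N q g (r₂ N q h) (bijective_r₂ N q h hq) τ, Fintype.sum_option, Pi.add_apply,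
    heckeU_def, Finset.sum_apply, Finset.sum_range]
  congr 1
  · have h1 : (((r₂ N q h none)⁻¹ : Gamma0 N) : SL(2, ℤ)) = gam0Inv N q h := gam0_inv N q h
    rw [h1, diagQ_mul_gam0Inv]
  · refine Finset.sum_congr rfl fun j _ => ?_
    have h1 : (((r₂ N q h (some j))⁻¹ : Gamma0 N) : SL(2, ℤ)) = tau ((j : ℕ) : ℤ) :=
      tauInv_inv _
    rw [h1, diagQ_mul_tau]

end TraceFormulas

/-! ### The `q`-new subspace -/

section NewSub

variable (N q : ℕ) [NeZero N] [NeZero q]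

/-- The `q`-new subspace of `S₂(Γ₀(N q))`: the common kernel of the two traces to level `N`. -/
def NewSub : Submodule ℂ (CuspForm (Gamma0 (N * q)) 2) :=
  LinearMap.ker (Tr₁ N q) ⊓ LinearMap.ker (Tr₂ N q)

variable {N q}

theorem mem_NewSub {g : CuspForm (Gamma0 (N * q)) 2} :
    g ∈ NewSub N q ↔ Tr₁ N q g = 0 ∧ Tr₂ N q g = 0 := by
  rw [NewSub, Submodule.mem_inf, LinearMap.mem_ker, LinearMap.mem_ker]

/-- On the `q`-new subspace, `U_q ^ 2 = 1` (function level). -/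
theorem heckeU_heckeU_of_mem_NewSub (h : Nat.Coprime q N) (hq : q.Prime)
    {g : CuspForm (Gamma0 (N * q)) 2} (hg : g ∈ NewSub N q) :
    heckeU 2 q (heckeU 2 q (⇑g : ℍ → ℂ)) = ⇑g := by
  obtain ⟨h1, h2⟩ := mem_NewSub.mp hg
  have e1 := coe_Tr₁ N q h hq g
  have e2 := coe_Tr₂ N q h hq g
  rw [h1, FunLike.coe_zero] at e1
  rw [h2, FunLike.coe_zero] at e2
  have e3 : (⇑g : ℍ → ℂ) ∣[(2 : ℤ)] aMat N q h = - heckeU 2 q ⇑g :=
    eq_neg_of_add_eq_zero_left e2.symm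
  rw [e3, heckeU_neg] at e1
  exact (eq_of_sub_eq_zero (by rw [sub_eq_add_neg]; exact e1.symm)).symm

/-- On the `q`-new subspace, `U_q ^ 2 = 1`. -/
theorem heckeULin_heckeULin_of_mem_NewSub (h : Nat.Coprime q N) (hq : q.Prime)
    {g : CuspForm (Gamma0 (N * q)) 2} (hg : g ∈ NewSub N q) :
    CuspForm.heckeULin 2 (dvd_mul_left q N) (CuspForm.heckeULin 2 (dvd_mul_left q N) g) = g := by
  apply DFunLike.coe_injective
  rw [CuspForm.coe_heckeULin_apply, CuspForm.coe_heckeULin_apply]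
  exact heckeU_heckeU_of_mem_NewSub h hq hg

end NewSub

end Fermat.Agent.S41.Forms
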