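import Mathlib
import Fermat.Prelude.Thm_CuspForm_heckeTLin_comm
import Fermat.Prelude.Thm_CuspForm_heckeTLin_heckeULin_comm
import Fermat.Prelude.Thm_CuspForm_heckeULin_comm
import Fermat.Agent.S23.Glue
import Fermat.Agent.S49.CommonEigenvector
import Fermat.Agent.S49.Eigenform
import Fermat.Agent.S41.Forms.Trace

/-!
# P-S41 (B1-c), interface (I6a): from a `q`-new Hecke eigenvector to a normalised eigenform
(helper40)

Given a nonzero `g0` in the `q`-new subspace `NewSub N q` of `S₂(Γ₀(N q))` which is an eigenvector of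
the `T_l` (`l ∤ N q` prime, `P l`) with eigenvalues `c l`, there is a normalised eigenform `g` of
level `N q` with `a_l(g) = c l` for these `l` and `a_q(g) ^ 2 = 1`.
-/

set_option autoImplicit false

open CongruenceSubgroup UpperHalfPlane ModularForm
open scoped MatrixGroups ModularForm

noncomputable section

namespace Fermat.Agent.S41.Forms

/-! ### The commuting family of all Hecke operators of level `M` -/

section HeckeFamily

variable (M : ℕ) [NeZero M]

/-- The Hecke operator at `l` of level `M` on weight two cusp forms: `T_l` for a prime `l ∤ M`,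
`U_l` for a prime `l ∣ M`, and the identity if `l` is not prime. -/
def heckeOp (l : ℕ) : Module.End ℂ (CuspForm (Gamma0 M) 2) :=
  if hl : l.Prime then
    if hd : l ∣ M then CuspForm.heckeULin 2 hd else CuspForm.heckeTLin 2 hl hd
  else 1

theorem heckeOp_of_not_dvd {l : ℕ} (hl : l.Prime) (hd : ¬ l ∣ M) :
    heckeOp M l = CuspForm.heckeTLin 2 hl hd := by
  rw [heckeOp, dif_pos hl, dif_neg hd]

theorem heckeOp_of_dvd {l : ℕ} (hl : l.Prime) (hd : l ∣ M) :
    heckeOp M l = CuspForm.heckeULin 2 hd := by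
  rw [heckeOp, dif_pos hl, dif_pos hd]

theorem heckeOp_of_not_prime {l : ℕ} (hl : ¬ l.Prime) : heckeOp M l = 1 := by
  rw [heckeOp, dif_neg hl]

theorem heckeOp_comm (l l' : ℕ) : heckeOp M l * heckeOp M l' = heckeOp M l' * heckeOp M l := by
  by_cases hl : l.Prime
  · by_cases hl' : l'.Prime
    · by_cases hd : l ∣ M
      · by_cases hd' : l' ∣ M
        · rw [heckeOp_of_dvd M hl hd, heckeOp_of_dvd M hl' hd']
          exact CuspForm.heckeULin_comm 2 hd hd'
        · rw [heckeOp_of_dvd M hl hd, heckeOp_of_not_dvd M hl' hd']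
          exact (CuspForm.heckeTLin_heckeULin_comm 2 hl' hd' hd).symm
      · by_cases hd' : l' ∣ M
        · rw [heckeOp_of_not_dvd M hl hd, heckeOp_of_dvd M hl' hd']
          exact CuspForm.heckeTLin_heckeULin_comm 2 hl hd hd'
        · rw [heckeOp_of_not_dvd M hl hd, heckeOp_of_not_dvd M hl' hd']
          exact CuspForm.heckeTLin_comm 2 hl hd hl' hd'
    · rw [heckeOp_of_not_prime M hl', mul_one, one_mul]
  · rw [heckeOp_of_not_prime M hl, mul_one, one_mul]

theorem heckeOp_comm_apply (l l' : ℕ) (x : CuspForm (Gamma0 M) 2) :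
    heckeOp M l (heckeOp M l' x) = heckeOp M l' (heckeOp M l x) := by
  have h := congrArg (fun f : Module.End ℂ (CuspForm (Gamma0 M) 2) => f x) (heckeOp_comm M l l')
  simpa only [Module.End.mul_apply] using h

/-- The subspace of `S₂(Γ₀(M))` cut out by a partial eigensystem `c` on the primes `l ∤ M` with
`P l`, together with `U_q ^ 2 = 1`. -/
def eigenSub (P : ℕ → Prop) (c : ℕ → ℂ) (q : ℕ) : Submodule ℂ (CuspForm (Gamma0 M) 2) where
  carrier := {v | (∀ l : ℕ, l.Prime → ¬ l ∣ M → P l → heckeOp M l v = c l • v) ∧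
    heckeOp M q (heckeOp M q v) = v}
  add_mem' := by
    rintro a b ⟨ha1, ha2⟩ ⟨hb1, hb2⟩
    refine ⟨fun l hl hd hP => ?_, ?_⟩
    · rw [map_add, ha1 l hl hd hP, hb1 l hl hd hP, smul_add]
    · rw [map_add, map_add, ha2, hb2]
  zero_mem' := by
    refine ⟨fun l _ _ _ => ?_, ?_⟩
    · rw [map_zero, smul_zero]
    · rw [map_zero, map_zero]
  smul_mem' := by
    rintro t a ⟨ha1, ha2⟩
    refine ⟨fun l hl hd hP => ?_, ?_⟩
    · rw [map_smul, ha1 l hl hd hP, smul_comm]
    · rw [map_smul, map_smul, ha2]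

theorem mem_eigenSub {P : ℕ → Prop} {c : ℕ → ℂ} {q : ℕ} {v : CuspForm (Gamma0 M) 2} :
    v ∈ eigenSub M P c q ↔
      (∀ l : ℕ, l.Prime → ¬ l ∣ M → P l → heckeOp M l v = c l • v) ∧
        heckeOp M q (heckeOp M q v) = v := Iff.rfl

theorem heckeOp_mem_eigenSub {P : ℕ → Prop} {c : ℕ → ℂ} {q : ℕ} (i : ℕ)
    {v : CuspForm (Gamma0 M) 2} (hv : v ∈ eigenSub M P c q) :
    heckeOp M i v ∈ eigenSub M P c q := by
  obtain ⟨h1, h2⟩ := hv
  refine ⟨fun l hl hd hP => ?_, ?_⟩
  · rw [heckeOp_comm_apply, h1 l hl hd hP, map_smul]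
  · rw [heckeOp_comm_apply M q i, heckeOp_comm_apply M q i, h2]

end HeckeFamily

/-! ### (I6a) -/

/-- **(I6a)** A nonzero `q`-new form which is an eigenvector of the `T_l` (`l ∤ N q` prime with
`P l`) with eigenvalues `c l` gives a normalised eigenform `g` of level `N q` with `a_l(g) = c l`
for these `l` and `a_q(g) ^ 2 = 1`. -/
theorem exists_eigenform_of_mem_NewSub (N q : ℕ) [NeZero N] [NeZero q] (hq : q.Prime)
    (hqN : ¬ q ∣ N) (P : ℕ → Prop) (c : ℕ → ℂ) (g0 : CuspForm (Gamma0 (N * q)) 2)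
    (hg0 : g0 ∈ NewSub N q) (hne : g0 ≠ 0)
    (hT : ∀ (l : ℕ) (hl : l.Prime) (hlNq : ¬ l ∣ N * q), P l →
      CuspForm.heckeTLin 2 hl hlNq g0 = c l • g0) :
    ∃ g : CuspForm (Gamma0 (N * q)) 2, g.IsNormalizedEigenform ∧
      (∀ l : ℕ, l.Prime → ¬ l ∣ N * q → P l → ModularFormClass.qCoeff g l = c l) ∧
      ModularFormClass.qCoeff g q ^ 2 = 1 := by
  have hcop : Nat.Coprime q N := (Nat.Prime.coprime_iff_not_dvd hq).mpr hqN
  have hqd : q ∣ N * q := dvd_mul_left q N
  have := Fermat.Agent.S23.finiteDimensional_cuspForm (N * q) 2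
  -- `g0` lies in the eigen-subspace
  have hg0W : g0 ∈ eigenSub (N * q) P c q := by
    refine ⟨fun l hl hd hP => ?_, ?_⟩
    · rw [heckeOp_of_not_dvd (N * q) hl hd]
      exact hT l hl hd hP
    · rw [heckeOp_of_dvd (N * q) hq hqd]
      exact heckeULin_heckeULin_of_mem_NewSub hcop hq hg0
  have hW : eigenSub (N * q) P c q ≠ ⊥ := by
    intro hbot
    rw [hbot, Submodule.mem_bot] at hg0W
    exact hne hg0W
  -- a common eigenvector of all Hecke operators inside it
  obtain ⟨w, hwW, hw0, hw⟩ := Fermat.Agent.S49.Lifting.exists_common_eigenvector_in_submodule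
    (heckeOp (N * q)) (heckeOp_comm (N * q)) _ (eigenSub (N * q) P c q) rfl hW
    (fun i x hx => heckeOp_mem_eigenSub (N * q) i hx)
  choose lam hlam using hw
  obtain ⟨g, hg, hgl⟩ := Fermat.Agent.S49.Eigenform.exists_normalizedEigenform_of_eigenvector w hw0
    lam (fun l hl hd => by rw [← heckeOp_of_not_dvd (N * q) hl hd]; exact hlam l)
    (fun l hl hd => by rw [← heckeOp_of_dvd (N * q) hl hd]; exact hlam l)
  obtain ⟨hw1, hw2⟩ := hwW
  refine ⟨g, hg, fun l hl hd hP => ?_, ?_⟩
  · rw [hgl l hl]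
    have h1 := hw1 l hl hd hP
    rw [hlam l] at h1
    exact smul_left_injective ℂ hw0 h1
  · rw [hgl q hq]
    rw [hlam q, map_smul, hlam q, smul_smul] at hw2
    have h2 : (lam q * lam q) • w = (1 : ℂ) • w := by rw [hw2, one_smul]
    have h3 := smul_left_injective ℂ hw0 h2
    rw [pow_two]
    exact h3

end Fermat.Agent.S41.Forms
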