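import Fermat.Agent.S41.ES.Consumer
import Fermat.Agent.S41.Forms.Trace

/-!
# P-S41 (B1): **(KEY)** and THEOREM F without hypotheses (helper40)

`traceKey : ES.TraceKey N q` for `q` prime, `q ∤ N` (from the explicit trace formulas of
`Forms/Trace.lean`), and helper98's THEOREM F (`ES/Consumer.lean`) with the key hypothesis discharged.
-/

set_option autoImplicit false

open CongruenceSubgroup ModularForm
open scoped MatrixGroups
open ModularCurve ModularCurve.Period
open Fermat.Agent.Gateway.A2 Fermat.Agent.Gateway.HeckeCoh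
open Fermat.Agent.S41 Fermat.Agent.S41.ES

namespace Fermat.Agent.S41.Forms

/-- **(KEY)**: for `q` prime, `q ∤ N`, `U_q` is an involution on the common kernel of the two
traces `S₂(Γ₀(N q)) → S₂(Γ₀(N))`. -/
theorem traceKey (N q : ℕ) [NeZero q] [NeZero N] (hq : q.Prime) (hqN : ¬ q ∣ N) :
    TraceKey N q := by
  intro g h1 h2
  exact heckeULin_heckeULin_of_mem_NewSub ((Nat.Prime.coprime_iff_not_dvd hq).mpr hqN) hq
    (mem_NewSub.mpr ⟨h1, h2⟩)

/-- **THEOREM F** in the shape consumed by the final assembly. -/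
theorem exists_eigenform_of_class (N q : ℕ) [NeZero q] [NeZero N] (hq : q.Prime) (hqN : ¬ q ∣ N)
    (P : ℕ → Prop) (c : ℕ → ℂ) (x : Additive (Gamma0 (N * q)) →+ ℂ)
    (hx : x ∈ homPE ℂ (Gamma0 (N * q)) ℂ) (hx0 : x ≠ 0) (h1 : cor₁ N q ℂ x = 0)
    (h2 : cor₂ N q ℂ x = 0)
    (hT : ∀ (l : ℕ) (hl : l.Prime) (hlNq : ¬ l ∣ N * q), P l →
      (haveI := Fact.mk hl; heckeHom (N * q) l hlNq ℂ x) = c l • x) :
    ∃ g : CuspForm (Gamma0 (N * q)) 2, g.IsNormalizedEigenform ∧
      (∀ l : ℕ, l.Prime → ¬ l ∣ N * q → P l → ModularFormClass.qCoeff g l = c l) ∧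
      ModularFormClass.qCoeff g q ^ 2 = 1 :=
  exists_eigenform_of_class_of_key N q hq (traceKey N q hq hqN) P c x hx hx0 h1 h2 hT

end Fermat.Agent.S41.Forms
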